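import Fermat.Agent.LT.A2.H444.Idele

/-!
# Row LT, tower A2, leaf `FinOrdC` (helper444), part 2: weak approximation and the density theorem

OFF-MAIN.  Mathlib only (on top of `Idele.lean`).

* `denseRange_diag444` : weak approximation at the places of `∞ ∪ S` (`S` a finite set of finite
  places), from Mathlib's abstract `AbsoluteValue.denseRange_algebraMap_pi`.
* `dense_comp_principal444` : the same for the unit groups.
* `idele_char_trivial444` : a continuous character of the idele group of `K` which is trivial on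
  the principal ideles and on the ideles supported at a single finite place `v ∉ S` is trivial.
-/

set_option autoImplicit false
set_option linter.unusedVariables false

open IsDedekindDomain NumberField Filter Topology

noncomputable section

namespace Fermat.Agent.LT.A2.H444

variable {K : Type} [Field K] [NumberField K]

/-- The absolute values of the places in `∞ ∪ S`. -/
def av444 (S : Finset (HeightOneSpectrum (𝓞 K))) :
    InfinitePlace K ⊕ {v : HeightOneSpectrum (𝓞 K) // v ∈ S} → AbsoluteValue K ℝ :=
  Sum.elim (fun w => w.1) (fun v => NumberField.HeightOneSpectrum.adicAbv K v.1)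

theorem adicAbv_lt_one444 (v : HeightOneSpectrum (𝓞 K)) {x : 𝓞 K} (hx : x ∈ v.asIdeal) :
    NumberField.HeightOneSpectrum.adicAbv K v (algebraMap (𝓞 K) K x) < 1 :=
  (v.adicAbv_coe_lt_one_iff (NumberField.HeightOneSpectrum.one_lt_absNorm_nnreal v) x).mpr hx

theorem adicAbv_eq_one444 (v : HeightOneSpectrum (𝓞 K)) {x : 𝓞 K} (hx : x ∉ v.asIdeal) :
    NumberField.HeightOneSpectrum.adicAbv K v (algebraMap (𝓞 K) K x) = 1 :=
  (v.adicAbv_coe_eq_one_iff (NumberField.HeightOneSpectrum.one_lt_absNorm_nnreal v) x).mpr hx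

theorem av444_nontrivial (S : Finset (HeightOneSpectrum (𝓞 K))) (i) :
    (av444 S i).IsNontrivial := by
  rcases i with w | v
  · exact w.isNontrivial
  · obtain ⟨x, hx, hx0⟩ := Submodule.exists_mem_ne_zero_of_ne_bot v.1.ne_bot
    refine ⟨algebraMap (𝓞 K) K x, ?_, ?_⟩
    · intro h
      exact hx0 ((FaithfulSMul.algebraMap_eq_zero_iff (𝓞 K) K).mp h)
    · exact (adicAbv_lt_one444 v.1 hx).ne

theorem av444_pairwise (S : Finset (HeightOneSpectrum (𝓞 K))) :
    Pairwise fun i j => ¬ (av444 S i).IsEquiv (av444 S j) := by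
  intro i j hij heq
  rcases i with w | v <;> rcases j with w' | v'
  · exact hij (congrArg Sum.inl (InfinitePlace.eq_iff_isEquiv.mpr heq))
  · -- archimedean against non-archimedean
    have h := (heq (2 : K) 1).mpr (by
      show NumberField.HeightOneSpectrum.adicAbv K v'.1 (2 : K) ≤
        NumberField.HeightOneSpectrum.adicAbv K v'.1 1
      rw [map_one]
      exact_mod_cast NumberField.HeightOneSpectrum.adicAbv_natCast_le_one K v'.1 2)
    have h2 : (w.1 : AbsoluteValue K ℝ) (2 : K) = 2 := by
      have := w.2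
      obtain ⟨φ, hφ⟩ := this
      rw [← hφ, NumberField.place_apply, map_ofNat]
      norm_num
    have h3 : (w.1 : AbsoluteValue K ℝ) (2 : K) ≤ (w.1 : AbsoluteValue K ℝ) 1 := h
    rw [h2, map_one] at h3
    norm_num at h3
  · have h := (heq (2 : K) 1).mp (by
      show NumberField.HeightOneSpectrum.adicAbv K v.1 (2 : K) ≤
        NumberField.HeightOneSpectrum.adicAbv K v.1 1
      rw [map_one]
      exact_mod_cast NumberField.HeightOneSpectrum.adicAbv_natCast_le_one K v.1 2)
    have h2 : (w'.1 : AbsoluteValue K ℝ) (2 : K) = 2 := by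
      have := w'.2
      obtain ⟨φ, hφ⟩ := this
      rw [← hφ, NumberField.place_apply, map_ofNat]
      norm_num
    have h3 : (w'.1 : AbsoluteValue K ℝ) (2 : K) ≤ (w'.1 : AbsoluteValue K ℝ) 1 := h
    rw [h2, map_one] at h3
    norm_num at h3
  · have hne : v.1 ≠ v'.1 := fun h => hij (congrArg Sum.inr (Subtype.ext h))
    have hnle : ¬ v.1.asIdeal ≤ v'.1.asIdeal := by
      intro hle
      have := v.1.isMaximal.eq_of_le v'.1.isPrime.ne_top hle
      exact hne (HeightOneSpectrum.ext this)
    obtain ⟨x, hx, hx'⟩ := Set.not_subset.mp hnle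
    have h := (heq 1 (algebraMap (𝓞 K) K x)).mpr (by
      show NumberField.HeightOneSpectrum.adicAbv K v'.1 1 ≤
        NumberField.HeightOneSpectrum.adicAbv K v'.1 (algebraMap (𝓞 K) K x)
      rw [map_one, adicAbv_eq_one444 v'.1 hx'])
    have h3 : NumberField.HeightOneSpectrum.adicAbv K v.1 1 ≤
        NumberField.HeightOneSpectrum.adicAbv K v.1 (algebraMap (𝓞 K) K x) := h
    rw [map_one] at h3
    exact absurd (adicAbv_lt_one444 v.1 hx) (not_lt.mpr h3)


/-- The product of the completions at the places of `∞ ∪ S`. -/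
abbrev X444 (S : Finset (HeightOneSpectrum (𝓞 K))) : Type :=
  ((w : InfinitePlace K) → w.Completion) ×
    ((v : {v : HeightOneSpectrum (𝓞 K) // v ∈ S}) → v.1.adicCompletion K)

/-- The diagonal embedding of `K` in the product of the completions at the places of `∞ ∪ S`. -/
def diag444 (S : Finset (HeightOneSpectrum (𝓞 K))) (x : K) : X444 S :=
  (fun w => (algebraMap K (Ad444 K) x).1 w, fun v => (algebraMap K (Ad444 K) x).2 v.1)

/-- The embedding of `K` with the `v`-adic absolute value in the completion. -/
def embFin444 (v : HeightOneSpectrum (𝓞 K)) :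
    WithAbs (NumberField.HeightOneSpectrum.adicAbv K v) →+* v.adicCompletion K :=
  (NumberField.FinitePlace.embedding v).comp
    (WithAbs.equiv (NumberField.HeightOneSpectrum.adicAbv K v)).toRingHom

theorem continuous_embFin444 (v : HeightOneSpectrum (𝓞 K)) : Continuous (embFin444 (K := K) v) := by
  refine (AddMonoidHomClass.isometry_of_norm (embFin444 v) (fun x => ?_)).continuous
  show ‖NumberField.FinitePlace.embedding v (WithAbs.equiv _ x)‖ = ‖x‖
  rw [NumberField.FinitePlace.norm_embedding]
  rfl

theorem denseRange_embFin444 (v : HeightOneSpectrum (𝓞 K)) : DenseRange (embFin444 (K := K) v) := by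
  have h : Set.range (embFin444 (K := K) v) = Set.range (algebraMap K (v.adicCompletion K)) := by
    ext y
    constructor
    · rintro ⟨x, rfl⟩
      exact ⟨WithAbs.equiv _ x, rfl⟩
    · rintro ⟨x, rfl⟩
      exact ⟨(WithAbs.equiv _).symm x, by
        show NumberField.FinitePlace.embedding v (WithAbs.equiv _ ((WithAbs.equiv _).symm x)) = _
        rw [RingEquiv.apply_symm_apply]
        rfl⟩
  rw [DenseRange, h]
  exact HeightOneSpectrum.denseRange_algebraMap K v

/-- **Weak approximation** at the places of `∞ ∪ S`. -/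
theorem denseRange_diag444 (S : Finset (HeightOneSpectrum (𝓞 K))) :
    DenseRange (diag444 (K := K) S) := by
  have h0 := AbsoluteValue.denseRange_algebraMap_pi (av444_nontrivial S) (av444_pairwise S)
  let c1 : (w : InfinitePlace K) → WithAbs w.1 → w.Completion := fun w x => (x : w.Completion)
  let e1 : (w : InfinitePlace K) → WithAbs (av444 S (Sum.inl w)) → w.Completion :=
    fun w x => c1 w x
  let e2 : (v : {v : HeightOneSpectrum (𝓞 K) // v ∈ S}) → WithAbs (av444 S (Sum.inr v)) →
      v.1.adicCompletion K := fun v x => embFin444 v.1 x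
  have hd1 : DenseRange (Pi.map e1) :=
    DenseRange.piMap (fun w => InfinitePlace.Completion.denseRange_coe w)
  have hd2 : DenseRange (Pi.map e2) := DenseRange.piMap (fun v => denseRange_embFin444 v.1)
  have hc1 : Continuous (Pi.map e1) :=
    Continuous.piMap (fun w => InfinitePlace.Completion.continuous_coe w)
  have hc2 : Continuous (Pi.map e2) := Continuous.piMap (fun v => continuous_embFin444 v.1)
  let hh := (Homeomorph.sumPiEquivProdPi (InfinitePlace K)
    {v : HeightOneSpectrum (𝓞 K) // v ∈ S} (fun i => WithAbs (av444 S i)))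
  have hd3 := ((hd1.prodMap hd2).comp hh.surjective.denseRange (hc1.prodMap hc2)).comp h0
    ((hc1.prodMap hc2).comp hh.continuous)
  have heq : diag444 (K := K) S = (Prod.map (Pi.map e1) (Pi.map e2) ∘ ⇑hh) ∘
      ⇑(algebraMap K ((i : InfinitePlace K ⊕ {v : HeightOneSpectrum (𝓞 K) // v ∈ S}) →
        WithAbs (av444 S i))) := by
    funext x
    rfl
  rw [heq]
  exact hd3


/-! ## Units -/

/-- The product of the unit groups of the completions at the places of `∞ ∪ S`. -/
abbrev Xu444 (S : Finset (HeightOneSpectrum (𝓞 K))) : Type :=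
  ((w : InfinitePlace K) → (w.Completion)ˣ) ×
    ((v : {v : HeightOneSpectrum (𝓞 K) // v ∈ S}) → (v.1.adicCompletion K)ˣ)

/-- The underlying elements. -/
def valX444 (S : Finset (HeightOneSpectrum (𝓞 K))) : Xu444 (K := K) S → X444 (K := K) S :=
  Prod.map (Pi.map (fun w => (Units.val : (w.Completion)ˣ → w.Completion)))
    (Pi.map (fun v => (Units.val : (v.1.adicCompletion K)ˣ → v.1.adicCompletion K)))

theorem isOpenEmbedding_valX444 (S : Finset (HeightOneSpectrum (𝓞 K))) :
    IsOpenEmbedding (valX444 (K := K) S) :=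
  IsOpenEmbedding.prodMap (IsOpenEmbedding.piMap (fun w => Units.isOpenEmbedding_val))
    (IsOpenEmbedding.piMap (fun v => Units.isOpenEmbedding_val))

/-- The principal idele of `α ∈ Kˣ`. -/
def principal444 : Kˣ →* (Ad444 K)ˣ := Units.map (algebraMap K (Ad444 K)).toMonoidHom

/-- The components of an idele at the places of `∞ ∪ S`. -/
def comp444 (S : Finset (HeightOneSpectrum (𝓞 K))) (z : (Ad444 K)ˣ) : Xu444 (K := K) S :=
  (fun w => unitInf444 w z, fun v => unitFin444 v.1 z)

theorem valX444_comp_principal (S : Finset (HeightOneSpectrum (𝓞 K))) (α : Kˣ) :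
    valX444 S (comp444 S (principal444 α)) = diag444 S (α : K) := rfl

/-- The components of the principal ideles are dense in the product of the unit groups of the
completions at the places of `∞ ∪ S`. -/
theorem dense_comp_principal444 (S : Finset (HeightOneSpectrum (𝓞 K))) :
    DenseRange (fun α : Kˣ => comp444 S (principal444 α)) := by
  rw [DenseRange, dense_iff_inter_open]
  intro O hO hOne
  have hopen : IsOpen (valX444 S '' O) := (isOpenEmbedding_valX444 S).isOpenMap O hO
  have hne : (valX444 S '' O).Nonempty := hOne.image _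
  obtain ⟨y, hyO, x, rfl⟩ := (denseRange_diag444 (K := K) S).inter_open_nonempty _ hopen hne
  obtain ⟨u, huO, hu⟩ := hyO
  obtain ⟨w₀⟩ : Nonempty (InfinitePlace K) := inferInstance
  have hx : x ≠ 0 := by
    rintro rfl
    have h1 := congrArg (fun t : X444 (K := K) S => t.1 w₀) hu
    have h2 : ((u.1 w₀ : (w₀.Completion)ˣ) : w₀.Completion) = 0 := by
      rw [show ((u.1 w₀ : (w₀.Completion)ˣ) : w₀.Completion) = (valX444 S u).1 w₀ from rfl]
      rw [hu]
      show (algebraMap K (Ad444 K) 0).1 w₀ = 0
      rw [map_zero]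
      rfl
    exact (u.1 w₀).ne_zero h2
  refine ⟨u, huO, Units.mk0 x hx, ?_⟩
  apply (isOpenEmbedding_valX444 S).injective
  rw [hu]
  rfl


/-! ## Gluing local components at the places of `∞ ∪ S` -/

/-- The idele with prescribed components at the places of `∞ ∪ S` and `1` elsewhere. -/
def glue444 (S : Finset (HeightOneSpectrum (𝓞 K))) (u : Xu444 (K := K) S) : (Ad444 K)ˣ :=
  (∏ w ∈ (Finset.univ : Finset (InfinitePlace K)), infIdele444 w (u.1 w)) *
    (∏ v ∈ S.attach, finIdele444 v.1 (u.2 v))

theorem continuous_glue444 (S : Finset (HeightOneSpectrum (𝓞 K))) :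
    Continuous (glue444 (K := K) S) := by
  unfold glue444
  refine Continuous.mul ?_ ?_
  · refine continuous_finsetProd _ (fun w _ => ?_)
    exact (continuous_infIdele444 w).comp ((continuous_apply w).comp continuous_fst)
  · refine continuous_finsetProd _ (fun v _ => ?_)
    exact (continuous_finIdele444 v.1).comp ((continuous_apply v).comp continuous_snd)

theorem glue444_inf (S : Finset (HeightOneSpectrum (𝓞 K))) (u : Xu444 (K := K) S)
    (w : InfinitePlace K) :
    ((glue444 S u : (Ad444 K)ˣ) : Ad444 K).1 w = (u.1 w : w.Completion) := by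
  unfold glue444
  have h2 : ((∏ v ∈ S.attach, finIdele444 v.1 (u.2 v) : (Ad444 K)ˣ) : Ad444 K).1 w = 1 := by
    rw [prod_inf444]
    exact Finset.prod_eq_one (fun v _ => finIdele444_inf v.1 (u.2 v) w)
  rw [mul_inf444, prod_infIdele_inf_mem444 (fun w => u.1 w) (Finset.mem_univ w), h2, mul_one]

theorem glue444_fin_mem (S : Finset (HeightOneSpectrum (𝓞 K))) (u : Xu444 (K := K) S)
    (v : {v : HeightOneSpectrum (𝓞 K) // v ∈ S}) :
    ((glue444 S u : (Ad444 K)ˣ) : Ad444 K).2 v.1 = (u.2 v : v.1.adicCompletion K) := by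
  unfold glue444
  have h2 : ((∏ v' ∈ S.attach, finIdele444 v'.1 (u.2 v') : (Ad444 K)ˣ) : Ad444 K).2 v.1 =
      (u.2 v : v.1.adicCompletion K) := by
    rw [prod_fin444, Finset.prod_eq_single_of_mem v (Finset.mem_attach S v), finIdele444_self]
    intro v' _ hne
    refine finIdele444_of_ne ?_ (u.2 v')
    intro h
    exact hne (Subtype.ext h.symm)
  rw [mul_fin444, prod_infIdele_fin444 _ (fun w => u.1 w), one_mul, h2]

theorem glue444_fin_notMem (S : Finset (HeightOneSpectrum (𝓞 K))) (u : Xu444 (K := K) S)
    {v : HeightOneSpectrum (𝓞 K)} (hv : v ∉ S) :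
    ((glue444 S u : (Ad444 K)ˣ) : Ad444 K).2 v = 1 := by
  unfold glue444
  have h2 : ((∏ v' ∈ S.attach, finIdele444 v'.1 (u.2 v') : (Ad444 K)ˣ) : Ad444 K).2 v = 1 := by
    rw [prod_fin444]
    refine Finset.prod_eq_one (fun v' _ => ?_)
    refine finIdele444_of_ne ?_ (u.2 v')
    rintro rfl
    exact hv v'.2
  rw [mul_fin444, prod_infIdele_fin444 _ (fun w => u.1 w), one_mul, h2]

variable {ψ : (Ad444 K)ˣ →* ℂˣ} {S : Finset (HeightOneSpectrum (𝓞 K))}

/-- A character trivial at the places outside `S` only depends on the components at the places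
of `∞ ∪ S`. -/
theorem psi_eq_psi_glue444 (hc : Continuous ψ) (h : TrivAway444 ψ S) (z : (Ad444 K)ˣ) :
    ψ z = ψ (glue444 S (comp444 S z)) := by
  have hz : z = glue444 S (comp444 S z) * ((glue444 S (comp444 S z))⁻¹ * z) := by
    rw [mul_inv_cancel_left]
  have h1 : ψ ((glue444 S (comp444 S z))⁻¹ * z) = 1 := by
    refine psi_of_triv444 hc h _ (fun w => ?_) (fun v hv => ?_)
    · rw [mul_inf444, inv_inf444, glue444_inf]
      show ((z : Ad444 K).1 w)⁻¹ * (z : Ad444 K).1 w = 1
      exact inv_mul_cancel₀ (unitInf444 w z).ne_zero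
    · rw [mul_fin444, inv_fin444, glue444_fin_mem S _ ⟨v, hv⟩]
      show ((z : Ad444 K).2 v)⁻¹ * (z : Ad444 K).2 v = 1
      exact inv_mul_cancel₀ (unitFin444 v z).ne_zero
  conv_lhs => rw [hz, map_mul, h1, mul_one]

/-- **Density theorem.**  A continuous character of the idele group which is trivial on the
principal ideles and on the ideles supported at a single finite place `v ∉ S` is trivial. -/
theorem idele_char_trivial444 (hc : Continuous ψ)
    (hK : ∀ x : Kˣ, ψ (Units.map (algebraMap K (Ad444 K)).toMonoidHom x) = 1)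
    (h : TrivAway444 ψ S) (z : (Ad444 K)ˣ) : ψ z = 1 := by
  have hclosed : IsClosed {u : Xu444 (K := K) S | ψ (glue444 S u) = 1} :=
    isClosed_eq (hc.comp (continuous_glue444 S)) continuous_const
  have hsub : Set.range (fun α : Kˣ => comp444 S (principal444 α)) ⊆
      {u : Xu444 (K := K) S | ψ (glue444 S u) = 1} := by
    rintro _ ⟨α, rfl⟩
    show ψ (glue444 S (comp444 S (principal444 α))) = 1
    rw [← psi_eq_psi_glue444 hc h]
    exact hK α
  have hall : ∀ u : Xu444 (K := K) S, ψ (glue444 S u) = 1 := by
    intro u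
    have := (dense_comp_principal444 (K := K) S).closure_eq
    have hu : u ∈ closure (Set.range (fun α : Kˣ => comp444 S (principal444 α))) := by
      rw [(dense_comp_principal444 (K := K) S).closure_range]
      trivial
    exact (closure_minimal hsub hclosed) hu
  rw [psi_eq_psi_glue444 hc h]
  exact hall _

end Fermat.Agent.LT.A2.H444
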