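import Fermat.Agent.Lib.Cheb.Bridge956A

/-!
# Row LT, tower A2, leaf `FinOrdC` (helper444), part 3: Frobenius elements over a number field

OFF-MAIN.  Imports: Mathlib, Prelude, plain modules of main (`S54/FrobExists`, `Lib/Cheb/Bridge956A`).

`exists_frobAt444`: for a number field `K`, an embedding `j : K → ℚ̄` and a finite place `v` of
`K` there are `σ ∈ Gal(ℚ̄ / j K)` and a valuation subring `A` of `ℚ̄` over `v` such that `σ` is a
Frobenius element at `A` with exponent `N(v)` (in the Prelude's sense).  Proof: the decomposition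
group of a prime of `ℤ̄` in the profinite group `Gal(ℚ̄ / j K)` surjects onto the automorphism
group of the residue field extension (Mathlib, `Ideal.Quotient.stabilizerHom_surjective_of_profinite`).
-/

set_option autoImplicit false
set_option linter.unusedVariables false
set_option linter.unusedSectionVars false
set_option linter.style.haveILetI false

open scoped Pointwise
open IsDedekindDomain NumberField

noncomputable section

namespace Fermat.Agent.LT.A2.H444

open Fermat.Agent.S54 Fermat.Agent.Lib.Cheb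

local notation "Qb" => AlgebraicClosure ℚ
local notation "GQ" => (AlgebraicClosure ℚ ≃ₐ[ℚ] AlgebraicClosure ℚ)
local notation "Zb" => integralClosure ℤ (AlgebraicClosure ℚ)

variable {K : Type} [Field K] [NumberField K]

/-- The absolute Galois group of `K`, embedded in `ℚ̄` by `j` (same carrier as `CFT.galOf j`). -/
def galK444 (j : K →+* Qb) : Subgroup GQ where
  carrier := {σ | ∀ x : K, σ (j x) = j x}
  one_mem' := fun _ => rfl
  mul_mem' := by
    intro a b ha hb x
    show a (b (j x)) = j x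
    rw [hb x, ha x]
  inv_mem' := by
    intro a ha x
    have h := congrArg (a⁻¹ : GQ) (ha x)
    have h2 : (a⁻¹ : GQ) (a (j x)) = j x := AlgEquiv.symm_apply_apply a (j x)
    rw [h2] at h
    exact h.symm

theorem mem_galK444 (j : K →+* Qb) (σ : GQ) : σ ∈ galK444 j ↔ ∀ x : K, σ (j x) = j x := Iff.rfl

/-- The image of `K` in `ℚ̄` as an intermediate field. -/
def fieldK444 (j : K →+* Qb) : IntermediateField ℚ Qb := (RingHom.toRatAlgHom j).fieldRange

theorem mem_fieldK444 (j : K →+* Qb) (y : Qb) : y ∈ fieldK444 j ↔ ∃ x : K, j x = y := Iff.rfl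

theorem galK444_eq_fixingSubgroup (j : K →+* Qb) : galK444 j = (fieldK444 j).fixingSubgroup := by
  ext σ
  rw [mem_galK444, IntermediateField.mem_fixingSubgroup_iff]
  constructor
  · rintro h y ⟨x, rfl⟩
    exact h x
  · intro h x
    exact h (j x) ⟨x, rfl⟩

theorem isClosed_galK444 (j : K →+* Qb) : IsClosed (galK444 j : Set GQ) := by
  haveI := isGalois_algebraicClosure_rat
  rw [galK444_eq_fixingSubgroup]
  exact InfiniteGalois.fixingSubgroup_isClosed _

/-- Products of elements of a valuation subring with nonunits are nonunits. -/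
theorem mul_mem_nonunits444 {F : Type*} [Field F] (A : ValuationSubring F) {a b : F}
    (ha : a ∈ A) (hb : b ∈ A.nonunits) : a * b ∈ A.nonunits := by
  rw [ValuationSubring.mem_nonunits_iff] at hb ⊢
  rw [map_mul]
  have h1 : A.valuation a ≤ 1 := (A.valuation_le_one_iff a).mpr ha
  calc A.valuation a * A.valuation b ≤ 1 * A.valuation b := by gcongr
    _ = A.valuation b := one_mul _
    _ < 1 := hb

/-! ## The profinite group `Gal(ℚ̄ / j K)` acting on `ℤ̄` -/

theorem compactSpace_galK444 (j : K →+* Qb) : CompactSpace (galK444 j) := by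
  haveI := isGalois_algebraicClosure_rat
  exact isCompact_iff_compactSpace.mp (isClosed_galK444 j).isCompact

theorem totallyDisconnectedSpace_galK444 (j : K →+* Qb) :
    TotallyDisconnectedSpace (galK444 j) := by
  haveI := isGalois_algebraicClosure_rat
  haveI : Algebra.IsAlgebraic ℚ (AlgebraicClosure ℚ) := AlgebraicClosure.isAlgebraic ℚ
  infer_instance

/-- The embedding of the integers of `K` in the ring of all algebraic integers. -/
def intEmb444 (j : K →+* Qb) : 𝓞 K →+* Zb where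
  toFun x := ⟨j (algebraMap (𝓞 K) K x), by
    have h : IsIntegral ℤ (algebraMap (𝓞 K) K x) := x.2
    exact h.map (j : K →+* Qb).toIntAlgHom⟩
  map_one' := Subtype.ext (by simp)
  map_mul' x y := Subtype.ext (by simp)
  map_zero' := Subtype.ext (by simp)
  map_add' x y := Subtype.ext (by simp)

theorem intEmb444_coe (j : K →+* Qb) (x : 𝓞 K) :
    ((intEmb444 j x : Zb) : Qb) = j (algebraMap (𝓞 K) K x) := rfl

theorem continuousSMul_galK444 (j : K →+* Qb) :
    letI : TopologicalSpace Zb := ⊥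
    ContinuousSMul (galK444 j) Zb := by
  letI : TopologicalSpace Zb := ⊥
  haveI := continuousSMul_integralClosure
  refine ⟨?_⟩
  have h : Continuous (fun p : GQ × Zb => p.1 • p.2) := continuous_smul
  exact h.comp (Continuous.prodMap continuous_subtype_val continuous_id)

theorem smul_intEmb444 (j : K →+* Qb) (g : galK444 j) (a : 𝓞 K) :
    g • intEmb444 j a = intEmb444 j a := by
  apply Subtype.ext
  exact g.2 (algebraMap (𝓞 K) K a)

theorem smulCommClass_galK444 (j : K →+* Qb) :
    letI : Algebra (𝓞 K) Zb := (intEmb444 j).toAlgebra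
    SMulCommClass (galK444 j) (𝓞 K) Zb := by
  letI : Algebra (𝓞 K) Zb := (intEmb444 j).toAlgebra
  refine ⟨fun g a b => ?_⟩
  rw [Algebra.smul_def, Algebra.smul_def, smul_mul']
  congr 1
  exact smul_intEmb444 j g a

theorem isInvariant_galK444 (j : K →+* Qb) :
    letI : Algebra (𝓞 K) Zb := (intEmb444 j).toAlgebra
    Algebra.IsInvariant (𝓞 K) Zb (galK444 j) := by
  letI : Algebra (𝓞 K) Zb := (intEmb444 j).toAlgebra
  haveI := isGalois_algebraicClosure_rat
  refine ⟨fun b hb => ?_⟩
  have hfix : (b : Qb) ∈ IntermediateField.fixedField (fieldK444 j).fixingSubgroup := by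
    rintro ⟨g, hg⟩
    have hg' : g ∈ galK444 j := by rw [galK444_eq_fixingSubgroup]; exact hg
    exact congrArg Subtype.val (hb ⟨g, hg'⟩)
  rw [InfiniteGalois.fixedField_fixingSubgroup] at hfix
  obtain ⟨x, hx⟩ := hfix
  have hx' : j x = (b : Qb) := hx
  have hint : IsIntegral ℤ x := by
    have h1 : IsIntegral ℤ (j x) := hx' ▸ b.2
    exact (isIntegral_algHom_iff (j : K →+* Qb).toIntAlgHom j.injective).mp h1
  exact ⟨⟨x, hint⟩, Subtype.ext hx'⟩

/-! ## A valuation subring over a finite place -/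

/-- Above every finite place `v` of `K` there is a valuation subring of `ℚ̄`. -/
theorem exists_valuationSubring_over444 (j : K →+* Qb) (v : HeightOneSpectrum (𝓞 K)) :
    ∃ A : ValuationSubring Qb,
      ∀ x : 𝓞 K, x ∈ v.asIdeal ↔ j (algebraMap (𝓞 K) K x) ∈ A.nonunits := by
  let ι : 𝓞 K →+* Qb := j.comp (algebraMap (𝓞 K) K)
  have hιinj : Function.Injective ι :=
    j.injective.comp RingOfIntegers.coe_injective
  let A₀ : Subring Qb := ι.range
  let ι' : 𝓞 K →+* A₀ := ι.rangeRestrict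
  have hι'surj : Function.Surjective ι' := ι.rangeRestrict_surjective
  let I : Ideal A₀ := v.asIdeal.map ι'
  have hP : v.asIdeal.IsPrime := v.isPrime
  have hI : I ≠ ⊤ := by
    intro h
    have h1 : (1 : A₀) ∈ I := by rw [h]; trivial
    obtain ⟨x, hx, hx1⟩ := (Ideal.mem_map_iff_of_surjective ι' hι'surj).mp h1
    have h2 : ι x = 1 := congrArg Subtype.val hx1
    have h3 : x = 1 := hιinj (by rw [h2, map_one])
    exact hP.ne_top ((Ideal.eq_top_iff_one _).mpr (h3 ▸ hx))
  obtain ⟨A, -, hA⟩ := Ideal.image_subset_nonunits_valuationSubring I hI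
  have hPA : ∀ y ∈ v.asIdeal, ι y ∈ A.nonunits := by
    intro y hy
    exact hA ⟨ι' y, Ideal.mem_map_of_mem _ hy, rfl⟩
  have hPmax : v.asIdeal.IsMaximal := v.isMaximal
  have hmem : ∀ y : 𝓞 K, ι y ∈ A := by
    intro y
    have h : IsIntegral ℤ (algebraMap (𝓞 K) K y) := y.2
    exact isIntegral_mem_valuationSubring A (h.map (j : K →+* Qb).toIntAlgHom)
  refine ⟨A, fun x => ⟨hPA x, fun hx => ?_⟩⟩
  by_contra hxP
  obtain ⟨y, z, hz, hyz⟩ := hPmax.exists_inv hxP
  have h1 : ι (y * x + z) = 1 := by rw [hyz, map_one]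
  rw [map_add, map_mul] at h1
  have h2 : (1 : Qb) ∈ A.nonunits := by
    rw [← h1]
    exact A.nonunits.add_mem (mul_mem_nonunits444 A (hmem y) hx) (hPA z hz)
  rw [ValuationSubring.mem_nonunits_iff] at h2
  simp at h2


/-! ## Frobenius elements with a prime power exponent -/

/-- If `σ` stabilises the prime `Q` below `A` and satisfies the congruence `σ x ≡ x ^ q mod Q` on
all algebraic integers, then `σ` is a Frobenius element at `A` with exponent `q`.
(`Lib.Cheb.isFrobeniusAt_of_primeBelow956` with an arbitrary exponent.) -/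
theorem isFrobeniusAt_of_primeBelow444 (ℓ : ℕ) (hℓ : ℓ.Prime) (q : ℕ)
    (A : ValuationSubring Qb) (hA : A.LiesOverPrime ℓ) (σ : GQ)
    (hσQ : ∀ x, σ • x ∈ primeBelow A ↔ x ∈ primeBelow A)
    (hσF : ∀ x : Zb, σ • x - x ^ q ∈ primeBelow A) :
    A.IsFrobeniusAt σ q := by
  have : Algebra.IsAlgebraic ℚ (AlgebraicClosure ℚ) := AlgebraicClosure.isAlgebraic ℚ
  have hσA : σ ∈ A.decompositionSubgroup ℚ :=
    mem_decompositionSubgroup_of_primeBelow_stable956 ℓ hℓ A hA σ hσQ
  refine ⟨hσA, ?_⟩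
  intro x
  obtain ⟨a, rfl⟩ := IsLocalRing.residue_surjective x
  obtain ⟨b, s, hb, hs, hsA, hxs⟩ := (mem_valuationSubring_iff A ℓ hℓ hA a).mp a.2
  have hbA : b ∈ A := isIntegral_mem_valuationSubring A hb
  have hsA' : s ∈ A := isIntegral_mem_valuationSubring A hs
  have hint : ∀ (y : AlgebraicClosure ℚ) (hy : IsIntegral ℤ y),
      (⟨σ, hσA⟩ : A.decompositionSubgroup ℚ) •
        IsLocalRing.residue A ⟨y, isIntegral_mem_valuationSubring A hy⟩ =
      (IsLocalRing.residue A ⟨y, isIntegral_mem_valuationSubring A hy⟩) ^ q := by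
    intro y hy
    rw [← IsLocalRing.ResidueField.residue_smul, ← map_pow, ← sub_eq_zero, ← map_sub,
      IsLocalRing.residue_eq_zero_iff, ← ValuationSubring.coe_mem_nonunits_iff]
    exact hσF ⟨y, hy⟩
  have h1 : IsLocalRing.residue A a * IsLocalRing.residue A ⟨s, hsA'⟩ =
      IsLocalRing.residue A ⟨b, hbA⟩ := by
    rw [← map_mul]
    congr 1
    exact Subtype.ext hxs
  have h2 : IsLocalRing.residue A ⟨s, hsA'⟩ ≠ 0 := by
    rw [Ne, IsLocalRing.residue_eq_zero_iff, ← ValuationSubring.coe_mem_nonunits_iff]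
    exact hsA
  have h3 := congrArg (fun z => (⟨σ, hσA⟩ : A.decompositionSubgroup ℚ) • z) h1
  simp only [smul_mul'] at h3
  rw [hint s hs, hint b hb, ← h1, mul_pow] at h3
  exact mul_right_cancel₀ (pow_ne_zero _ h2) h3

/-! ## Existence of Frobenius elements over `K` -/

/-- **Frobenius elements over a number field.**  For every finite place `v` of `K` there are
`σ ∈ Gal(ℚ̄ / j K)` and a valuation subring `A` of `ℚ̄` over `v` such that `σ` is a Frobenius
element at `A` with exponent `N(v)`. -/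
theorem exists_frobAt444 (j : K →+* Qb) (v : HeightOneSpectrum (𝓞 K)) :
    ∃ σ : GQ, (∀ x : K, σ (j x) = j x) ∧ ∃ A : ValuationSubring Qb,
      (∀ x : 𝓞 K, x ∈ v.asIdeal ↔ j (algebraMap (𝓞 K) K x) ∈ A.nonunits) ∧
      A.IsFrobeniusAt σ (Nat.card (𝓞 K ⧸ v.asIdeal)) := by
  classical
  haveI := isGalois_algebraicClosure_rat
  haveI : Algebra.IsAlgebraic ℚ (AlgebraicClosure ℚ) := AlgebraicClosure.isAlgebraic ℚ
  letI : TopologicalSpace Zb := ⊥
  haveI : DiscreteTopology Zb := ⟨rfl⟩
  letI : Algebra (𝓞 K) Zb := (intEmb444 j).toAlgebra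
  haveI := compactSpace_galK444 j
  haveI := totallyDisconnectedSpace_galK444 j
  haveI := continuousSMul_galK444 j
  haveI := smulCommClass_galK444 j
  haveI := isInvariant_galK444 j
  obtain ⟨A, hA⟩ := exists_valuationSubring_over444 j v
  -- the primes
  let P : Ideal (𝓞 K) := v.asIdeal
  haveI hPmax : P.IsMaximal := v.isMaximal
  let Q : Ideal Zb := primeBelow A
  haveI hQ : Q.IsPrime := primeBelow_isPrime A
  have hQmem : ∀ x : 𝓞 K, algebraMap (𝓞 K) Zb x ∈ Q ↔ x ∈ P := by
    intro x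
    rw [mem_primeBelow]
    exact (hA x).symm
  haveI hlies : Q.LiesOver P := by
    refine ⟨?_⟩
    ext x
    rw [Ideal.under_def, Ideal.mem_comap]
    exact (hQmem x).symm
  -- the residue field of `v`
  haveI : Finite (𝓞 K ⧸ P) := Ideal.finiteQuotientOfFreeOfNeBot P v.ne_bot
  letI : Field (𝓞 K ⧸ P) := Ideal.Quotient.field P
  letI : Fintype (𝓞 K ⧸ P) := Fintype.ofFinite _
  set q : ℕ := Nat.card (𝓞 K ⧸ P) with hq
  have hqcard : Fintype.card (𝓞 K ⧸ P) = q := by rw [hq, Nat.card_eq_fintype_card]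
  set p : ℕ := ringChar (𝓞 K ⧸ P) with hp
  haveI hcharP : CharP (𝓞 K ⧸ P) p := ringChar.charP _
  obtain ⟨n, hpprime, hcard⟩ := FiniteField.card (𝓞 K ⧸ P) p
  haveI : Fact p.Prime := ⟨hpprime⟩
  have hqpow : q = p ^ (n : ℕ) := by rw [← hqcard, hcard]
  have hqpos : 0 < q := by rw [hqpow]; exact pow_pos hpprime.pos _
  -- `p ∈ P`, `p ∈ Q`
  have hpP : (p : 𝓞 K) ∈ P := by
    rw [← Ideal.Quotient.eq_zero_iff_mem, map_natCast]
    exact CharP.cast_eq_zero _ p
  have hpQ : (p : Zb) ∈ Q := by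
    have := (hQmem (p : 𝓞 K)).mpr hpP
    rwa [map_natCast] at this
  have hAp : A.LiesOverPrime p := by
    have h1 : ((p : Zb) : Qb) ∈ A.nonunits := (mem_primeBelow A _).mp hpQ
    have h2 : ((p : Zb) : Qb) = (p : Qb) := by simp
    rw [h2] at h1
    exact h1
  -- characteristic of the big residue field
  haveI : IsDomain (Zb ⧸ Q) := Ideal.Quotient.isDomain Q
  have hzero : ((p : ℕ) : Zb ⧸ Q) = 0 := by
    have : (Ideal.Quotient.mk Q) (p : Zb) = 0 := Ideal.Quotient.eq_zero_iff_mem.mpr hpQ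
    simpa using this
  haveI hchar : CharP (Zb ⧸ Q) p := (CharP.charP_iff_prime_eq_zero hpprime).mpr hzero
  -- the `q`-Frobenius as an algebra automorphism
  let f : (Zb ⧸ Q) →ₐ[𝓞 K ⧸ P] (Zb ⧸ Q) :=
    { toRingHom := iterateFrobenius (Zb ⧸ Q) p n
      commutes' := by
        intro y
        show iterateFrobenius (Zb ⧸ Q) p n (algebraMap (𝓞 K ⧸ P) (Zb ⧸ Q) y) =
          algebraMap (𝓞 K ⧸ P) (Zb ⧸ Q) y
        rw [iterateFrobenius_def, ← map_pow, ← hqpow, ← hqcard, FiniteField.pow_card] }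
  have hf : ∀ x : Zb ⧸ Q, f x = x ^ q := by
    intro x
    show iterateFrobenius (Zb ⧸ Q) p n x = x ^ q
    rw [iterateFrobenius_def, hqpow]
  have hinj : Function.Injective f := iterateFrobenius_inj (Zb ⧸ Q) p n
  have hsurj : Function.Surjective f := by
    intro y
    obtain ⟨b, rfl⟩ := Ideal.Quotient.mk_surjective y
    obtain ⟨c, hc⟩ := IsAlgClosed.exists_pow_nat_eq (b : AlgebraicClosure ℚ) hqpos
    have hcint : IsIntegral ℤ c := by
      have hb : IsIntegral ℤ (c ^ q) := hc ▸ b.2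
      exact IsIntegral.of_pow hqpos hb
    refine ⟨Ideal.Quotient.mk Q ⟨c, hcint⟩, ?_⟩
    rw [hf, ← map_pow]
    congr 1
    exact Subtype.ext hc
  let e : (Zb ⧸ Q) ≃ₐ[𝓞 K ⧸ P] (Zb ⧸ Q) := AlgEquiv.ofBijective f ⟨hinj, hsurj⟩
  obtain ⟨σ, hσ⟩ := Ideal.Quotient.stabilizerHom_surjective_of_profinite
    (G := galK444 j) P Q e
  have hσF : ∀ x : Zb, (σ.1 : GQ) • x - x ^ q ∈ Q := by
    intro x
    have h2 := congrArg (fun t => t (Ideal.Quotient.mk Q x)) hσ
    simp only [Ideal.Quotient.stabilizerHom_apply] at h2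
    have h3 : e (Ideal.Quotient.mk Q x) = Ideal.Quotient.mk Q (x ^ q) := by
      show f (Ideal.Quotient.mk Q x) = _
      rw [hf, map_pow]
    rw [h3] at h2
    rw [← Ideal.Quotient.eq]
    exact h2
  have hσQ' : ((σ.1 : galK444 j) : GQ) • primeBelow A = primeBelow A := σ.2
  have hτK : ∀ x : K, ((σ.1 : galK444 j) : GQ) (j x) = j x := σ.1.2
  generalize ((σ.1 : galK444 j) : GQ) = τ at hσF hσQ' hτK
  have hσQ : ∀ x, τ • x ∈ primeBelow A ↔ x ∈ primeBelow A := by
    intro x
    conv_lhs => rw [← hσQ']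
    exact Ideal.smul_mem_pointwise_smul_iff
  exact ⟨τ, hτK, A, hA, isFrobeniusAt_of_primeBelow444 p hpprime q A hAp τ hσQ hσF⟩

end Fermat.Agent.LT.A2.H444
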