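import Fermat.Agent.LT.A2.H38.ArtinSeedSpec
import Fermat.Agent.LT.A2.H444.Approx
import Fermat.Agent.LT.A2.H444.FrobK

/-!
# Row LT, tower A2, branch GALSEED, leaf `FinOrdC` (registry row 816, helper444)

OFF-MAIN.  `finOrdC444 : Fermat.Agent.LT.A2.H38.FinOrdC` -- the Prop of
`LT/A2/H38/ArtinSeedSpec.lean` (origin/helper38@fd6f38a61) VERBATIM, unconditional.

A Hecke character `θ` attached to a Galois character `χ` of finite order has finite order:
`χ ^ n = 1` for `n = [M : ℚ]`, `M` the normal closure of the field cut out by `χ`; every finite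
place `v` of `K` has a Frobenius element in `G_K` (`exists_frobAt444`), so `θ ^ n` is trivial on
the ideles supported at a single place `v ∉ S`; `θ ^ n` is continuous and trivial on the principal
ideles, hence trivial (`idele_char_trivial444`: weak approximation).
-/

set_option autoImplicit false
set_option linter.unusedVariables false
set_option linter.unusedSectionVars false
set_option linter.style.haveILetI false

open IsDedekindDomain NumberField

noncomputable section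

namespace Fermat.Agent.LT.A2.H444

open Fermat.Agent.LT Fermat.Agent.LT.H556 Fermat.Agent.LT.A2 Fermat.Agent.LT.A2.H38

local notation "Qb" => AlgebraicClosure ℚ
local notation "GQ" => (AlgebraicClosure ℚ ≃ₐ[ℚ] AlgebraicClosure ℚ)

/-- A character of finite order (in the sense of `CFT.IsFiniteOrderChar`) has a finite
exponent. -/
theorem exists_exponent444 {K : Type} [Field K] (j : K →+* Qb) (χ : ↥(CFT.galOf j) →* ℂˣ)
    (h : CFT.IsFiniteOrderChar j χ) :
    ∃ n : ℕ, 0 < n ∧ ∀ σ : ↥(CFT.galOf j), χ σ ^ n = 1 := by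
  obtain ⟨F, hFfin, hF⟩ := h
  haveI : Algebra.IsAlgebraic ℚ (AlgebraicClosure ℚ) := AlgebraicClosure.isAlgebraic ℚ
  haveI : IsAlgClosure ℚ (AlgebraicClosure ℚ) := ⟨inferInstance, inferInstance⟩
  haveI : Normal ℚ (AlgebraicClosure ℚ) := IsAlgClosure.normal ℚ (AlgebraicClosure ℚ)
  let M : IntermediateField ℚ Qb := IntermediateField.normalClosure ℚ F (AlgebraicClosure ℚ)
  have hFM : F ≤ M := IntermediateField.le_normalClosure F
  haveI hMfin : FiniteDimensional ℚ M := normalClosure.is_finiteDimensional ℚ F (AlgebraicClosure ℚ)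
  haveI hMnormal : Normal ℚ M := normalClosure.normal ℚ F (AlgebraicClosure ℚ)
  haveI : Finite (M ≃ₐ[ℚ] M) := inferInstance
  refine ⟨Nat.card (M ≃ₐ[ℚ] M), Nat.card_pos, fun σ => ?_⟩
  rw [← map_pow]
  apply hF
  rw [IntermediateField.mem_fixingSubgroup_iff]
  intro x hx
  have h1 : (AlgEquiv.restrictNormalHom M (σ : GQ)) ^ Nat.card (M ≃ₐ[ℚ] M) = 1 :=
    pow_card_eq_one'
  have h2 : AlgEquiv.restrictNormalHom M ((σ : GQ) ^ Nat.card (M ≃ₐ[ℚ] M)) = 1 := by
    rw [map_pow, h1]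
  have h3 := AlgEquiv.restrictNormal_commutes ((σ : GQ) ^ Nat.card (M ≃ₐ[ℚ] M)) M ⟨x, hFM hx⟩
  have h4 : ((σ : GQ) ^ Nat.card (M ≃ₐ[ℚ] M)).restrictNormal M = 1 := h2
  rw [h4] at h3
  exact h3.symm


/-- Components of an integral power of an idele. -/
theorem zpow_fin444 {K : Type} [Field K] [NumberField K] (z : (Ad444 K)ˣ) (k : ℤ)
    (v : HeightOneSpectrum (𝓞 K)) :
    ((z ^ k : (Ad444 K)ˣ) : Ad444 K).2 v = ((z : Ad444 K).2 v) ^ k := by
  have h := map_zpow (unitFin444 v) z k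
  have h2 := congrArg (fun u : (v.adicCompletion K)ˣ => (u : v.adicCompletion K)) h
  simp only [Units.val_zpow_eq_zpow_val] at h2
  exact h2

theorem zpow_inf444 {K : Type} [Field K] [NumberField K] (z : (Ad444 K)ˣ) (k : ℤ)
    (w : InfinitePlace K) :
    ((z ^ k : (Ad444 K)ˣ) : Ad444 K).1 w = ((z : Ad444 K).1 w) ^ k := by
  have h := map_zpow (unitInf444 w) z k
  have h2 := congrArg (fun u : (w.Completion)ˣ => (u : w.Completion)) h
  simp only [Units.val_zpow_eq_zpow_val] at h2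
  exact h2

/-- The local step: at a place where `θ` is the Hecke character of `χ`, the `n`-th power of `θ`
is trivial on the ideles supported at this place (`n` an exponent of `χ`). -/
theorem theta_pow_eq_one444 {K : Type} [Field K] [NumberField K] (j : K →+* Qb)
    (χ : ↥(CFT.galOf j) →* ℂˣ) (θ : (Ad444 K)ˣ →* ℂˣ) (n : ℕ)
    (hχn : ∀ σ : ↥(CFT.galOf j), χ σ ^ n = 1) (v : HeightOneSpectrum (𝓞 K))
    (hv1 : ∀ z : (Ad444 K)ˣ, CFT.IsIdeleAt v z →
      (Valued.v ((z : Ad444 K).2 v) = 1 → θ z = 1) ∧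
      (Valued.v ((z : Ad444 K).2 v) = WithZero.exp (-1 : ℤ) →
        ∀ σ : ↥(CFT.galOf j), CFT.IsFrobAt j v (σ : GQ) → θ z = χ σ))
    (z : (Ad444 K)ˣ) (hz : CFT.IsIdeleAt v z) : θ z ^ n = 1 := by
  obtain ⟨σ, hσK, A, hA, hfrob⟩ := exists_frobAt444 j v
  have hσ : σ ∈ CFT.galOf j := hσK
  have hFr : CFT.IsFrobAt j v σ := ⟨hσ, A, hA, hfrob⟩
  -- a uniformiser
  obtain ⟨ϖ, hϖ⟩ := v.valuation_exists_uniformizer K
  have hϖv : Valued.v (algebraMap K (v.adicCompletion K) ϖ) = WithZero.exp (-1 : ℤ) := by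
    rw [← hϖ]
    exact HeightOneSpectrum.valuedAdicCompletion_eq_valuation' v ϖ
  have hϖ0 : algebraMap K (v.adicCompletion K) ϖ ≠ 0 := by
    intro h
    rw [h, map_zero] at hϖv
    exact WithZero.exp_ne_zero hϖv.symm
  set π : (Ad444 K)ˣ := finIdele444 v (Units.mk0 _ hϖ0) with hπdef
  have hπ : CFT.IsIdeleAt v π :=
    ⟨fun w => finIdele444_inf v _ w, fun v' hne => finIdele444_of_ne hne _⟩
  have hπv : Valued.v ((π : Ad444 K).2 v) = WithZero.exp (-1 : ℤ) := by
    rw [hπdef, finIdele444_self]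
    exact hϖv
  have hθπ : θ π = χ ⟨σ, hσ⟩ := (hv1 π hπ).2 hπv ⟨σ, hσ⟩ hFr
  -- the valuation of `z`
  have hz0 : (z : Ad444 K).2 v ≠ 0 := (unitFin444 v z).ne_zero
  have hval0 : Valued.v ((z : Ad444 K).2 v) ≠ 0 := (Valuation.ne_zero_iff _).mpr hz0
  set k : ℤ := WithZero.log (Valued.v ((z : Ad444 K).2 v)) with hkdef
  have hk : WithZero.exp k = Valued.v ((z : Ad444 K).2 v) := WithZero.exp_log hval0
  -- the unit part
  have hu : CFT.IsIdeleAt v (z * π ^ k) := by
    refine ⟨fun w => ?_, fun v' hne => ?_⟩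
    · rw [mul_inf444, zpow_inf444, hz.1 w, hπ.1 w, one_zpow, one_mul]
    · rw [mul_fin444, zpow_fin444, hz.2 v' hne, hπ.2 v' hne, one_zpow, one_mul]
  have huv : Valued.v (((z * π ^ k : (Ad444 K)ˣ) : Ad444 K).2 v) = 1 := by
    rw [mul_fin444, zpow_fin444, map_mul, map_zpow₀, hπv, ← hk, ← WithZero.exp_zsmul,
      ← WithZero.exp_add]
    simp
  have hθu : θ (z * π ^ k) = 1 := (hv1 _ hu).1 huv
  have hzu : z = (z * π ^ k) * π ^ (-k) := by
    rw [mul_assoc, ← zpow_add, add_neg_cancel, zpow_zero, mul_one]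
  rw [hzu, map_mul, hθu, one_mul, map_zpow, hθπ, ← zpow_natCast, ← zpow_mul, mul_comm,
    zpow_mul, zpow_natCast, hχn, one_zpow]

/-- **Leaf `FinOrdC`** (registry row 816), VERBATIM. -/
theorem finOrdC444 : FinOrdC := by
  intro K _ _ j χ θ hfo hH
  obtain ⟨n, hn, hχn⟩ := exists_exponent444 j χ hfo
  obtain ⟨hcont, htriv, S, hS⟩ := hH
  refine ⟨n, hn, fun z => ?_⟩
  let ψ : (Ad444 K)ˣ →* ℂˣ := θ ^ n
  have hψ : ∀ z : (Ad444 K)ˣ, ψ z = θ z ^ n := fun z => rfl
  have hc : Continuous ψ := by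
    have h1 : (ψ : (Ad444 K)ˣ → ℂˣ) = fun z => θ z ^ n := rfl
    rw [h1]
    exact hcont.pow n
  have hK : ∀ x : Kˣ, ψ (Units.map (algebraMap K (Ad444 K)).toMonoidHom x) = 1 := by
    intro x
    rw [hψ, htriv x, one_pow]
  have hT : TrivAway444 ψ S := by
    intro v hv z hinf hfin
    rw [hψ]
    exact theta_pow_eq_one444 j χ θ n hχn v (hS v hv) z ⟨hinf, hfin⟩
  have h := idele_char_trivial444 hc hK hT z
  rw [hψ] at h
  exact h

end Fermat.Agent.LT.A2.H444
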