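import Mathlib

/-!
# Row LT, tower A2, leaf `FinOrdC` (helper444), part 1: ideles with prescribed components and
the density theorem

OFF-MAIN.  Mathlib only.

`idele_char_trivial444`: a continuous character `ψ` of the idele group of a number field `K`
which is trivial on the principal ideles and on the ideles supported at a single finite place
`v ∉ S` (`S` a finite set of finite places) is trivial.  (Weak approximation at the places in
`S` and at the infinite places, Mathlib's `AbsoluteValue.denseRange_algebraMap_pi`; the ideles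
with unit components are limits of ideles with finite support.)
-/

set_option autoImplicit false
set_option linter.unusedVariables false

open IsDedekindDomain NumberField Filter Topology
open scoped RestrictedProduct

noncomputable section

namespace Fermat.Agent.LT.A2.H444

variable (K : Type) [Field K] [NumberField K]

/-- The adele ring (same Mathlib type as `A0.Adl K`). -/
abbrev Ad444 : Type := NumberField.AdeleRing (𝓞 K) K

variable {K}

/-! ## Components -/

/-- The component at the infinite place `w`, as a ring homomorphism. -/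
def evInf444 (w : InfinitePlace K) : Ad444 K →+* w.Completion where
  toFun x := x.1 w
  map_one' := rfl
  map_mul' _ _ := rfl
  map_zero' := rfl
  map_add' _ _ := rfl

/-- The component at the finite place `v`, as a ring homomorphism. -/
def evFin444 (v : HeightOneSpectrum (𝓞 K)) : Ad444 K →+* v.adicCompletion K where
  toFun x := x.2 v
  map_one' := rfl
  map_mul' _ _ := rfl
  map_zero' := rfl
  map_add' _ _ := rfl

theorem evInf444_apply (w : InfinitePlace K) (x : Ad444 K) : evInf444 w x = x.1 w := rfl

theorem evFin444_apply (v : HeightOneSpectrum (𝓞 K)) (x : Ad444 K) : evFin444 v x = x.2 v := rfl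

/-- An adele is determined by its components. -/
theorem ad_ext444 {x y : Ad444 K} (hinf : ∀ w : InfinitePlace K, x.1 w = y.1 w)
    (hfin : ∀ v : HeightOneSpectrum (𝓞 K), x.2 v = y.2 v) : x = y :=
  Prod.ext (funext hinf) (FiniteAdeleRing.ext K hfin)

/-- An idele is determined by its components. -/
theorem idele_ext444 {z z' : (Ad444 K)ˣ}
    (hinf : ∀ w : InfinitePlace K, (z : Ad444 K).1 w = (z' : Ad444 K).1 w)
    (hfin : ∀ v : HeightOneSpectrum (𝓞 K), (z : Ad444 K).2 v = (z' : Ad444 K).2 v) : z = z' :=
  Units.ext (ad_ext444 hinf hfin)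

theorem continuous_evInf444 (w : InfinitePlace K) : Continuous (evInf444 (K := K) w) :=
  (continuous_apply w).comp continuous_fst

theorem continuous_evFin444 (v : HeightOneSpectrum (𝓞 K)) : Continuous (evFin444 (K := K) v) :=
  (RestrictedProduct.continuous_eval v).comp continuous_snd


/-! ## Ideles supported at one place -/

theorem cofinite_le_principal_compl444 {ι : Type*} (T : Set ι) (hT : T.Finite) :
    (cofinite : Filter ι) ≤ 𝓟 Tᶜ := by
  rw [le_principal_iff, mem_cofinite, compl_compl]
  exact hT

open Classical in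
/-- The finite adele with component `c` at `v` and `1` at the other places, in the restricted
product along the principal filter of `{v}ᶜ`. -/
def finAdPre444 (v : HeightOneSpectrum (𝓞 K)) (c : v.adicCompletion K) :
    Πʳ v' : HeightOneSpectrum (𝓞 K), [v'.adicCompletion K, v'.adicCompletionIntegers K]_[𝓟 {v}ᶜ] :=
  ⟨Function.update (fun _ => 1) v c, by
    rw [eventually_principal]
    intro v' hv'
    rw [Function.update_of_ne hv']
    exact (v'.adicCompletionIntegers K).one_mem⟩

theorem continuous_finAdPre444 (v : HeightOneSpectrum (𝓞 K)) :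
    Continuous (finAdPre444 (K := K) v) := by
  classical
  rw [RestrictedProduct.continuous_rng_of_principal_iff_forall]
  intro v'
  by_cases h : v' = v
  · subst h
    have : ((fun x : Πʳ v'' : HeightOneSpectrum (𝓞 K),
        [v''.adicCompletion K, v''.adicCompletionIntegers K]_[𝓟 {v'}ᶜ] => x v') ∘ finAdPre444 v')
        = fun c => c := by
      funext c
      simp [finAdPre444]
    rw [this]
    exact continuous_id
  · have : ((fun x : Πʳ v'' : HeightOneSpectrum (𝓞 K),
        [v''.adicCompletion K, v''.adicCompletionIntegers K]_[𝓟 {v}ᶜ] => x v') ∘ finAdPre444 v)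
        = fun _ => 1 := by
      funext c
      simp [finAdPre444, Function.update_of_ne h]
    rw [this]
    exact continuous_const

/-- The finite adele with component `c` at `v` and `1` at the other places. -/
def finAd444 (v : HeightOneSpectrum (𝓞 K)) (c : v.adicCompletion K) :
    FiniteAdeleRing (𝓞 K) K :=
  RestrictedProduct.inclusion _ _ (cofinite_le_principal_compl444 {v} (Set.finite_singleton v))
    (finAdPre444 v c)

theorem finAd444_self (v : HeightOneSpectrum (𝓞 K)) (c : v.adicCompletion K) :
    finAd444 v c v = c := by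
  classical
  show Function.update (fun _ => 1) v c v = c
  simp

theorem finAd444_of_ne {v v' : HeightOneSpectrum (𝓞 K)} (h : v' ≠ v) (c : v.adicCompletion K) :
    finAd444 v c v' = 1 := by
  classical
  show Function.update (fun _ => 1) v c v' = 1
  rw [Function.update_of_ne h]

theorem continuous_finAd444 (v : HeightOneSpectrum (𝓞 K)) : Continuous (finAd444 (K := K) v) :=
  (RestrictedProduct.continuous_inclusion _).comp (continuous_finAdPre444 v)

/-- The adele with component `c` at the finite place `v` and `1` at the other places, as a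
monoid homomorphism. -/
def finAdHom444 (v : HeightOneSpectrum (𝓞 K)) : v.adicCompletion K →* Ad444 K where
  toFun c := ((1 : InfiniteAdeleRing K), finAd444 v c)
  map_one' := by
    refine ad_ext444 (fun w => rfl) (fun v' => ?_)
    by_cases h : v' = v
    · subst h
      exact finAd444_self v' 1
    · exact finAd444_of_ne h 1
  map_mul' c c' := by
    refine ad_ext444 (fun w => (one_mul (1 : w.Completion)).symm) (fun v' => ?_)
    by_cases h : v' = v
    · subst h
      show finAd444 v' (c * c') v' = finAd444 v' c v' * finAd444 v' c' v'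
      rw [finAd444_self, finAd444_self, finAd444_self]
    · show finAd444 v (c * c') v' = finAd444 v c v' * finAd444 v c' v'
      rw [finAd444_of_ne h, finAd444_of_ne h, finAd444_of_ne h, one_mul]

theorem continuous_finAdHom444 (v : HeightOneSpectrum (𝓞 K)) :
    Continuous (finAdHom444 (K := K) v) :=
  Continuous.prodMk continuous_const (continuous_finAd444 v)

/-- The idele with component `c` at the finite place `v` and `1` at the other places. -/
def finIdele444 (v : HeightOneSpectrum (𝓞 K)) : (v.adicCompletion K)ˣ →* (Ad444 K)ˣ :=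
  Units.map (finAdHom444 v)

theorem continuous_finIdele444 (v : HeightOneSpectrum (𝓞 K)) :
    Continuous (finIdele444 (K := K) v) :=
  Continuous.units_map (finAdHom444 v) (continuous_finAdHom444 v)

theorem finIdele444_inf (v : HeightOneSpectrum (𝓞 K)) (c : (v.adicCompletion K)ˣ)
    (w : InfinitePlace K) : ((finIdele444 v c : (Ad444 K)ˣ) : Ad444 K).1 w = 1 := rfl

theorem finIdele444_self (v : HeightOneSpectrum (𝓞 K)) (c : (v.adicCompletion K)ˣ) :
    ((finIdele444 v c : (Ad444 K)ˣ) : Ad444 K).2 v = c :=
  finAd444_self v c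

theorem finIdele444_of_ne {v v' : HeightOneSpectrum (𝓞 K)} (h : v' ≠ v)
    (c : (v.adicCompletion K)ˣ) : ((finIdele444 v c : (Ad444 K)ˣ) : Ad444 K).2 v' = 1 :=
  finAd444_of_ne h c


/-! ## Ideles supported at one infinite place -/

open Classical in
/-- The adele with component `c` at the infinite place `w` and `1` at the other places, as a
monoid homomorphism. -/
def infAdHom444 (w : InfinitePlace K) : w.Completion →* Ad444 K where
  toFun c := ((Function.update (fun _ => 1) w c : InfiniteAdeleRing K),
    (1 : FiniteAdeleRing (𝓞 K) K))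
  map_one' := by
    refine ad_ext444 (fun w' => ?_) (fun v' => rfl)
    show Function.update (fun _ => 1) w (1 : w.Completion) w' = 1
    by_cases h : w' = w
    · subst h
      simp
    · rw [Function.update_of_ne h]
  map_mul' c c' := by
    refine ad_ext444 (fun w' => ?_) (fun v' => (one_mul (1 : v'.adicCompletion K)).symm)
    show Function.update (fun _ => 1) w (c * c') w' =
      Function.update (fun _ => 1) w c w' * Function.update (fun _ => 1) w c' w'
    by_cases h : w' = w
    · subst h
      simp
    · rw [Function.update_of_ne h, Function.update_of_ne h, Function.update_of_ne h, one_mul]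

theorem continuous_infAdHom444 (w : InfinitePlace K) :
    Continuous (infAdHom444 (K := K) w) := by
  classical
  refine Continuous.prodMk ?_ continuous_const
  refine continuous_pi (fun w' => ?_)
  by_cases h : w' = w
  · subst h
    have : (fun c : w'.Completion => (Function.update (fun _ => 1) w' c : InfiniteAdeleRing K) w')
        = fun c => c := by
      funext c
      simp
    rw [this]
    exact continuous_id
  · have : (fun c : w.Completion => (Function.update (fun _ => 1) w c : InfiniteAdeleRing K) w')
        = fun _ => 1 := by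
      funext c
      rw [Function.update_of_ne h]
    rw [this]
    exact continuous_const

/-- The idele with component `c` at the infinite place `w` and `1` at the other places. -/
def infIdele444 (w : InfinitePlace K) : (w.Completion)ˣ →* (Ad444 K)ˣ :=
  Units.map (infAdHom444 w)

theorem continuous_infIdele444 (w : InfinitePlace K) :
    Continuous (infIdele444 (K := K) w) :=
  Continuous.units_map (infAdHom444 w) (continuous_infAdHom444 w)

theorem infIdele444_fin (w : InfinitePlace K) (c : (w.Completion)ˣ)
    (v : HeightOneSpectrum (𝓞 K)) : ((infIdele444 w c : (Ad444 K)ˣ) : Ad444 K).2 v = 1 := rfl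

theorem infIdele444_self (w : InfinitePlace K) (c : (w.Completion)ˣ) :
    ((infIdele444 w c : (Ad444 K)ˣ) : Ad444 K).1 w = c := by
  classical
  show Function.update (fun _ => 1) w (c : w.Completion) w = c
  simp

theorem infIdele444_of_ne {w w' : InfinitePlace K} (h : w' ≠ w) (c : (w.Completion)ˣ) :
    ((infIdele444 w c : (Ad444 K)ˣ) : Ad444 K).1 w' = 1 := by
  classical
  show Function.update (fun _ => 1) w (c : w.Completion) w' = 1
  rw [Function.update_of_ne h]

/-! ## Ideles with unit components -/

/-- The adele with integral components `y v` at the finite places and `1` at the infinite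
places. -/
def unitAdHom444 :
    ((v : HeightOneSpectrum (𝓞 K)) → v.adicCompletionIntegers K) →* Ad444 K where
  toFun y := ((1 : InfiniteAdeleRing K),
    (RestrictedProduct.structureMap (fun v : HeightOneSpectrum (𝓞 K) => v.adicCompletion K)
      (fun v => (v.adicCompletionIntegers K : Set (v.adicCompletion K))) cofinite y :
      FiniteAdeleRing (𝓞 K) K))
  map_one' := ad_ext444 (fun w => rfl) (fun v => rfl)
  map_mul' y y' := ad_ext444 (fun w => (one_mul (1 : w.Completion)).symm) (fun v => rfl)

theorem unitAdHom444_fin (y : (v : HeightOneSpectrum (𝓞 K)) → v.adicCompletionIntegers K)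
    (v : HeightOneSpectrum (𝓞 K)) : (unitAdHom444 y).2 v = (y v : v.adicCompletion K) := rfl

theorem continuous_unitAdHom444 : Continuous (unitAdHom444 (K := K)) :=
  Continuous.prodMk continuous_const RestrictedProduct.isEmbedding_structureMap.continuous

/-- The idele with unit components `y v` at the finite places and `1` at the infinite places. -/
def unitIdele444 :
    ((v : HeightOneSpectrum (𝓞 K)) → (v.adicCompletionIntegers K)ˣ) →* (Ad444 K)ˣ :=
  (Units.map unitAdHom444).comp MulEquiv.piUnits.symm.toMonoidHom

theorem unitIdele444_inf (y : (v : HeightOneSpectrum (𝓞 K)) → (v.adicCompletionIntegers K)ˣ)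
    (w : InfinitePlace K) : ((unitIdele444 y : (Ad444 K)ˣ) : Ad444 K).1 w = 1 := rfl

theorem unitIdele444_fin (y : (v : HeightOneSpectrum (𝓞 K)) → (v.adicCompletionIntegers K)ˣ)
    (v : HeightOneSpectrum (𝓞 K)) :
    ((unitIdele444 y : (Ad444 K)ˣ) : Ad444 K).2 v = ((y v : v.adicCompletionIntegers K) :
      v.adicCompletion K) := rfl

theorem continuous_unitIdele444 : Continuous (unitIdele444 (K := K)) := by
  rw [Units.continuous_iff]
  constructor
  · have : (Units.val ∘ (unitIdele444 (K := K))) =
        unitAdHom444 ∘ (fun y v => ((y v : (v.adicCompletionIntegers K)ˣ) :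
          v.adicCompletionIntegers K)) := rfl
    rw [this]
    exact continuous_unitAdHom444.comp
      (continuous_pi (fun v => Units.continuous_val.comp (continuous_apply v)))
  · have : (fun y => ((unitIdele444 (K := K) y)⁻¹ : (Ad444 K)ˣ).val) =
        unitAdHom444 ∘ (fun y v => (((y v)⁻¹ : (v.adicCompletionIntegers K)ˣ) :
          v.adicCompletionIntegers K)) := by
      funext y
      rw [← map_inv]
      rfl
    rw [this]
    exact continuous_unitAdHom444.comp
      (continuous_pi (fun v => Units.continuous_val.comp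
        (continuous_inv.comp (continuous_apply v))))


/-! ## Components of units and of finite products -/

/-- The component of an idele at the finite place `v`, as a unit. -/
def unitFin444 (v : HeightOneSpectrum (𝓞 K)) : (Ad444 K)ˣ →* (v.adicCompletion K)ˣ :=
  Units.map (evFin444 v).toMonoidHom

/-- The component of an idele at the infinite place `w`, as a unit. -/
def unitInf444 (w : InfinitePlace K) : (Ad444 K)ˣ →* (w.Completion)ˣ :=
  Units.map (evInf444 w).toMonoidHom

theorem unitFin444_val (v : HeightOneSpectrum (𝓞 K)) (z : (Ad444 K)ˣ) :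
    ((unitFin444 v z : (v.adicCompletion K)ˣ) : v.adicCompletion K) = (z : Ad444 K).2 v := rfl

theorem unitInf444_val (w : InfinitePlace K) (z : (Ad444 K)ˣ) :
    ((unitInf444 w z : (w.Completion)ˣ) : w.Completion) = (z : Ad444 K).1 w := rfl

theorem mul_fin444 (z z' : (Ad444 K)ˣ) (v : HeightOneSpectrum (𝓞 K)) :
    ((z * z' : (Ad444 K)ˣ) : Ad444 K).2 v = (z : Ad444 K).2 v * (z' : Ad444 K).2 v := rfl

theorem mul_inf444 (z z' : (Ad444 K)ˣ) (w : InfinitePlace K) :
    ((z * z' : (Ad444 K)ˣ) : Ad444 K).1 w = (z : Ad444 K).1 w * (z' : Ad444 K).1 w := rfl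

theorem one_fin444 (v : HeightOneSpectrum (𝓞 K)) :
    ((1 : (Ad444 K)ˣ) : Ad444 K).2 v = 1 := rfl

theorem one_inf444 (w : InfinitePlace K) :
    ((1 : (Ad444 K)ˣ) : Ad444 K).1 w = 1 := rfl

theorem inv_fin444 (z : (Ad444 K)ˣ) (v : HeightOneSpectrum (𝓞 K)) :
    ((z⁻¹ : (Ad444 K)ˣ) : Ad444 K).2 v = ((z : Ad444 K).2 v)⁻¹ := by
  have h := map_inv (unitFin444 v) z
  have h2 := congrArg (fun u : (v.adicCompletion K)ˣ => (u : v.adicCompletion K)) h
  simp only [Units.val_inv_eq_inv_val] at h2
  exact h2

theorem inv_inf444 (z : (Ad444 K)ˣ) (w : InfinitePlace K) :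
    ((z⁻¹ : (Ad444 K)ˣ) : Ad444 K).1 w = ((z : Ad444 K).1 w)⁻¹ := by
  have h := map_inv (unitInf444 w) z
  have h2 := congrArg (fun u : (w.Completion)ˣ => (u : w.Completion)) h
  simp only [Units.val_inv_eq_inv_val] at h2
  exact h2

theorem prod_fin444 {ι : Type*} (T : Finset ι) (f : ι → (Ad444 K)ˣ)
    (v : HeightOneSpectrum (𝓞 K)) :
    ((∏ i ∈ T, f i : (Ad444 K)ˣ) : Ad444 K).2 v = ∏ i ∈ T, ((f i : (Ad444 K)ˣ) : Ad444 K).2 v := by
  have h := map_prod (unitFin444 v) f T
  have h2 := congrArg (fun u : (v.adicCompletion K)ˣ => (u : v.adicCompletion K)) h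
  simp only [Units.coe_prod] at h2
  exact h2

theorem prod_inf444 {ι : Type*} (T : Finset ι) (f : ι → (Ad444 K)ˣ)
    (w : InfinitePlace K) :
    ((∏ i ∈ T, f i : (Ad444 K)ˣ) : Ad444 K).1 w = ∏ i ∈ T, ((f i : (Ad444 K)ˣ) : Ad444 K).1 w := by
  have h := map_prod (unitInf444 w) f T
  have h2 := congrArg (fun u : (w.Completion)ˣ => (u : w.Completion)) h
  simp only [Units.coe_prod] at h2
  exact h2

/-- Components of a finite product of ideles supported at distinct finite places. -/
theorem prod_finIdele_fin_mem444 {T : Finset (HeightOneSpectrum (𝓞 K))}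
    (c : (v : HeightOneSpectrum (𝓞 K)) → (v.adicCompletion K)ˣ) {v : HeightOneSpectrum (𝓞 K)}
    (h : v ∈ T) :
    ((∏ v' ∈ T, finIdele444 v' (c v') : (Ad444 K)ˣ) : Ad444 K).2 v = (c v : v.adicCompletion K) := by
  rw [prod_fin444, Finset.prod_eq_single_of_mem v h, finIdele444_self]
  intro v' _ hne
  exact finIdele444_of_ne hne.symm (c v')

theorem prod_finIdele_fin_notMem444 {T : Finset (HeightOneSpectrum (𝓞 K))}
    (c : (v : HeightOneSpectrum (𝓞 K)) → (v.adicCompletion K)ˣ) {v : HeightOneSpectrum (𝓞 K)}
    (h : v ∉ T) :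
    ((∏ v' ∈ T, finIdele444 v' (c v') : (Ad444 K)ˣ) : Ad444 K).2 v = 1 := by
  rw [prod_fin444]
  refine Finset.prod_eq_one (fun v' hv' => ?_)
  refine finIdele444_of_ne ?_ (c v')
  rintro rfl
  exact h hv'

theorem prod_finIdele_inf444 (T : Finset (HeightOneSpectrum (𝓞 K)))
    (c : (v : HeightOneSpectrum (𝓞 K)) → (v.adicCompletion K)ˣ) (w : InfinitePlace K) :
    ((∏ v' ∈ T, finIdele444 v' (c v') : (Ad444 K)ˣ) : Ad444 K).1 w = 1 := by
  rw [prod_inf444]
  exact Finset.prod_eq_one (fun v' _ => finIdele444_inf v' (c v') w)

/-- Components of a finite product of ideles supported at distinct infinite places. -/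
theorem prod_infIdele_inf_mem444 {T : Finset (InfinitePlace K)}
    (c : (w : InfinitePlace K) → (w.Completion)ˣ) {w : InfinitePlace K} (h : w ∈ T) :
    ((∏ w' ∈ T, infIdele444 w' (c w') : (Ad444 K)ˣ) : Ad444 K).1 w = (c w : w.Completion) := by
  rw [prod_inf444, Finset.prod_eq_single_of_mem w h, infIdele444_self]
  intro w' _ hne
  exact infIdele444_of_ne hne.symm (c w')

theorem prod_infIdele_fin444 (T : Finset (InfinitePlace K))
    (c : (w : InfinitePlace K) → (w.Completion)ˣ) (v : HeightOneSpectrum (𝓞 K)) :
    ((∏ w' ∈ T, infIdele444 w' (c w') : (Ad444 K)ˣ) : Ad444 K).2 v = 1 := by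
  rw [prod_fin444]
  exact Finset.prod_eq_one (fun w' _ => infIdele444_fin w' (c w') v)


/-! ## Characters trivial at the places outside `S` -/

/-- `ψ` is trivial on the ideles supported at a single finite place outside `S`. -/
def TrivAway444 (ψ : (Ad444 K)ˣ →* ℂˣ) (S : Finset (HeightOneSpectrum (𝓞 K))) : Prop :=
  ∀ v : HeightOneSpectrum (𝓞 K), v ∉ S → ∀ z : (Ad444 K)ˣ,
    (∀ w : InfinitePlace K, (z : Ad444 K).1 w = 1) →
    (∀ v' : HeightOneSpectrum (𝓞 K), v' ≠ v → (z : Ad444 K).2 v' = 1) → ψ z = 1

variable {ψ : (Ad444 K)ˣ →* ℂˣ} {S : Finset (HeightOneSpectrum (𝓞 K))}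

theorem psi_finIdele444 (h : TrivAway444 ψ S) {v : HeightOneSpectrum (𝓞 K)} (hv : v ∉ S)
    (c : (v.adicCompletion K)ˣ) : ψ (finIdele444 v c) = 1 :=
  h v hv _ (finIdele444_inf v c) (fun v' hne => finIdele444_of_ne hne c)

/-- A unit of the ring of integers of `K_v` as a unit of `K_v`. -/
def unitCoe444 (v : HeightOneSpectrum (𝓞 K)) :
    (v.adicCompletionIntegers K)ˣ →* (v.adicCompletion K)ˣ :=
  Units.map (v.adicCompletionIntegers K).subtype.toMonoidHom

theorem unitCoe444_val (v : HeightOneSpectrum (𝓞 K)) (u : (v.adicCompletionIntegers K)ˣ) :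
    ((unitCoe444 v u : (v.adicCompletion K)ˣ) : v.adicCompletion K) =
      ((u : v.adicCompletionIntegers K) : v.adicCompletion K) := rfl

open Classical in
/-- Truncation of a family of local units to a finite set of places. -/
def trunc444 (T : Finset (HeightOneSpectrum (𝓞 K)))
    (y : (v : HeightOneSpectrum (𝓞 K)) → (v.adicCompletionIntegers K)ˣ) :
    (v : HeightOneSpectrum (𝓞 K)) → (v.adicCompletionIntegers K)ˣ :=
  fun v => if v ∈ T then y v else 1

theorem trunc444_mem {T : Finset (HeightOneSpectrum (𝓞 K))}
    (y : (v : HeightOneSpectrum (𝓞 K)) → (v.adicCompletionIntegers K)ˣ)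
    {v : HeightOneSpectrum (𝓞 K)} (h : v ∈ T) : trunc444 T y v = y v := by
  unfold trunc444
  rw [if_pos h]

theorem trunc444_notMem {T : Finset (HeightOneSpectrum (𝓞 K))}
    (y : (v : HeightOneSpectrum (𝓞 K)) → (v.adicCompletionIntegers K)ˣ)
    {v : HeightOneSpectrum (𝓞 K)} (h : v ∉ T) : trunc444 T y v = 1 := by
  unfold trunc444
  rw [if_neg h]

theorem unitIdele_trunc444 (T : Finset (HeightOneSpectrum (𝓞 K)))
    (y : (v : HeightOneSpectrum (𝓞 K)) → (v.adicCompletionIntegers K)ˣ) :
    unitIdele444 (trunc444 T y) = ∏ v ∈ T, finIdele444 v (unitCoe444 v (y v)) := by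
  refine idele_ext444 (fun w => ?_) (fun v => ?_)
  · rw [unitIdele444_inf, prod_finIdele_inf444 T (fun v => unitCoe444 v (y v))]
  · rw [unitIdele444_fin]
    by_cases h : v ∈ T
    · rw [prod_finIdele_fin_mem444 (fun v => unitCoe444 v (y v)) h, trunc444_mem y h,
        unitCoe444_val]
    · rw [prod_finIdele_fin_notMem444 (fun v => unitCoe444 v (y v)) h, trunc444_notMem y h]
      rfl

theorem tendsto_trunc444
    (y : (v : HeightOneSpectrum (𝓞 K)) → (v.adicCompletionIntegers K)ˣ) :
    Tendsto (fun T : Finset (HeightOneSpectrum (𝓞 K)) => trunc444 T y) atTop (𝓝 y) := by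
  rw [tendsto_pi_nhds]
  intro v
  refine tendsto_const_nhds.congr' ?_
  filter_upwards [eventually_ge_atTop ({v} : Finset (HeightOneSpectrum (𝓞 K)))] with T hT
  exact (trunc444_mem y (hT (Finset.mem_singleton_self v))).symm

/-- A continuous character which is trivial at the places outside `S` is trivial on the ideles
with unit components which are `1` at the places of `S`. -/
theorem psi_unitIdele444 (hc : Continuous ψ) (h : TrivAway444 ψ S)
    (y : (v : HeightOneSpectrum (𝓞 K)) → (v.adicCompletionIntegers K)ˣ)
    (hy : ∀ v ∈ S, y v = 1) : ψ (unitIdele444 y) = 1 := by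
  have hlim : Tendsto (fun T : Finset (HeightOneSpectrum (𝓞 K)) =>
      ψ (unitIdele444 (trunc444 T y))) atTop (𝓝 (ψ (unitIdele444 y))) :=
    ((hc.comp continuous_unitIdele444).tendsto y).comp (tendsto_trunc444 y)
  have hone : (fun T : Finset (HeightOneSpectrum (𝓞 K)) =>
      ψ (unitIdele444 (trunc444 T y))) = fun _ => 1 := by
    funext T
    rw [unitIdele_trunc444, map_prod]
    refine Finset.prod_eq_one (fun v _ => ?_)
    by_cases hv : v ∈ S
    · rw [hy v hv, map_one, map_one, map_one]
    · exact psi_finIdele444 h hv _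
  rw [hone] at hlim
  exact tendsto_nhds_unique hlim tendsto_const_nhds

/-- The unit of the ring of integers of `K_v` given by an element of valuation `1`. -/
def unitOfValOne444 (v : HeightOneSpectrum (𝓞 K)) (x : v.adicCompletion K)
    (hx : Valued.v x = 1) : (v.adicCompletionIntegers K)ˣ where
  val := ⟨x, (HeightOneSpectrum.mem_adicCompletionIntegers (𝓞 K) K v).mpr (le_of_eq hx)⟩
  inv := ⟨x⁻¹, (HeightOneSpectrum.mem_adicCompletionIntegers (𝓞 K) K v).mpr (by
    rw [map_inv₀, hx, inv_one])⟩
  val_inv := by
    apply Subtype.ext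
    have hx0 : x ≠ 0 := by
      intro h0
      rw [h0, map_zero] at hx
      exact zero_ne_one hx
    exact mul_inv_cancel₀ hx0
  inv_val := by
    apply Subtype.ext
    have hx0 : x ≠ 0 := by
      intro h0
      rw [h0, map_zero] at hx
      exact zero_ne_one hx
    exact inv_mul_cancel₀ hx0

theorem unitOfValOne444_val (v : HeightOneSpectrum (𝓞 K)) (x : v.adicCompletion K)
    (hx : Valued.v x = 1) :
    (((unitOfValOne444 v x hx : (v.adicCompletionIntegers K)ˣ) : v.adicCompletionIntegers K) :
      v.adicCompletion K) = x := rfl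

theorem unitOfValOne444_one (v : HeightOneSpectrum (𝓞 K))
    (hx : Valued.v (1 : v.adicCompletion K) = 1) : unitOfValOne444 v 1 hx = 1 :=
  Units.ext (Subtype.ext rfl)

/-- The set of places where an idele is not a local unit is finite. -/
theorem finite_val_ne_one444 (z : (Ad444 K)ˣ) :
    {v : HeightOneSpectrum (𝓞 K) | Valued.v ((z : Ad444 K).2 v) ≠ 1}.Finite := by
  have h1 : (z : Ad444 K).2 * ((z⁻¹ : (Ad444 K)ˣ) : Ad444 K).2 = 1 :=
    congrArg (fun x : Ad444 K => x.2) z.mul_inv
  have h2 : IsUnit ((z : Ad444 K).2) := IsUnit.of_mul_eq_one _ h1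
  have h3 := (FiniteAdeleRing.isUnit_iff.mp h2).2
  rw [eventually_cofinite] at h3
  exact h3

/-- A continuous character which is trivial at the places outside `S` is trivial on the ideles
whose components at the infinite places and at the places of `S` are `1`. -/
theorem psi_of_triv444 (hc : Continuous ψ) (h : TrivAway444 ψ S) (z : (Ad444 K)ˣ)
    (hinf : ∀ w : InfinitePlace K, (z : Ad444 K).1 w = 1)
    (hS : ∀ v ∈ S, (z : Ad444 K).2 v = 1) : ψ z = 1 := by
  classical
  set T : Finset (HeightOneSpectrum (𝓞 K)) := (finite_val_ne_one444 z).toFinset with hT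
  have hmemT : ∀ v, v ∈ T ↔ Valued.v ((z : Ad444 K).2 v) ≠ 1 := by
    intro v
    rw [hT, Set.Finite.mem_toFinset]
    rfl
  let u : (v : HeightOneSpectrum (𝓞 K)) → (v.adicCompletionIntegers K)ˣ := fun v =>
    if hv : Valued.v ((z : Ad444 K).2 v) = 1 then unitOfValOne444 v _ hv else 1
  have hz : z = (∏ v ∈ T, finIdele444 v (unitFin444 v z)) * unitIdele444 u := by
    refine idele_ext444 (fun w => ?_) (fun v => ?_)
    · rw [mul_inf444, prod_finIdele_inf444 T (fun v => unitFin444 v z), unitIdele444_inf, hinf,
        one_mul]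
    · rw [mul_fin444, unitIdele444_fin]
      by_cases hv : v ∈ T
      · have hv' : ¬ Valued.v ((z : Ad444 K).2 v) = 1 := (hmemT v).mp hv
        rw [prod_finIdele_fin_mem444 (fun v => unitFin444 v z) hv, unitFin444_val]
        simp only [u, dif_neg hv']
        simp
      · have hv' : Valued.v ((z : Ad444 K).2 v) = 1 := by
          by_contra hcon
          exact hv ((hmemT v).mpr hcon)
        rw [prod_finIdele_fin_notMem444 (fun v => unitFin444 v z) hv]
        simp only [u, dif_pos hv']
        rw [unitOfValOne444_val, one_mul]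
  have hu : ∀ v ∈ S, u v = 1 := by
    intro v hv
    have h1 : Valued.v ((z : Ad444 K).2 v) = 1 := by rw [hS v hv, map_one]
    simp only [u, dif_pos h1]
    apply Units.ext
    apply Subtype.ext
    rw [unitOfValOne444_val]
    exact hS v hv
  rw [hz, map_mul, psi_unitIdele444 hc h u hu, mul_one, map_prod]
  refine Finset.prod_eq_one (fun v hv => ?_)
  refine psi_finIdele444 h ?_ _
  intro hvS
  exact (hmemT v).mp hv (by rw [hS v hvS, map_one])

end Fermat.Agent.LT.A2.H444
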